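import Fermat.Agent.GaloisReps.Results
import Fermat.Agent.Mazur.Eisenstein.Datum
import Fermat.Agent.Mazur.Eisenstein.Inputs

/-!
# The lattice of `J₀(N)` in the form used by the Eisenstein descent

The ring `HeckeAlg` acts on the lattice through the Hecke algebra of weight two forms; the
`r`-power torsion is parametrised by the coordinates of `TorsionIso.psi`.
-/

set_option autoImplicit false

noncomputable section

open ModularCurve

namespace Fermat.Agent.Mazur.Eisenstein.Jacobian

open Fermat.Agent.GaloisReps

variable (N : ℕ) [NeZero N]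

/-- The map to the Hecke algebra of weight two forms. -/
def toFull : HeckeAlg →+* FullHecke N :=
  MvPolynomial.eval₂Hom (Int.castRingHom _) fun l => HeckeDuality.heckeOp N 2 (l : ℕ) l.2

theorem toFull_heckeGen (l : Nat.Primes) :
    toFull N (heckeGen l) = HeckeDuality.heckeOp N 2 (l : ℕ) l.2 :=
  MvPolynomial.eval₂Hom_X' _ _ l

/-- The action of `HeckeAlg` on the lattice. -/
def latMat : HeckeAlg →+*
    Matrix (Fin (2 * Gamma0.genus N)) (Fin (2 * Gamma0.genus N)) ℤ :=
  (latticeMat N).comp (toFull N)

variable (r : ℕ) [Fact r.Prime]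

/-- The identification of the `r`-power torsion. -/
def iso : TorsionIso N r := torsionIso N r (conjProperty N)

/-- The torsion points in coordinates. -/
def torsMap (m : ℕ) : (Fin (2 * Gamma0.genus N) → ZMod (r ^ m)) →+ JZero N :=
  (JTors N r m).subtype.comp ((iso N r).psi m).symm.toAddMonoidHom

/-- Galois on the Tate module. -/
def latGal : GaloisReps.AbsGal →*
    Matrix (Fin (2 * Gamma0.genus N)) (Fin (2 * Gamma0.genus N)) ℤ_[r] :=
  (iso N r).gal

end Fermat.Agent.Mazur.Eisenstein.Jacobian

end
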