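import Fermat.Agent.GaloisReps.Attach
import Fermat.Agent.Mazur.Eisenstein.Datum

/-!
# The determinant on the eigenplanes of a model over an algebraic closure of `ℚ_r`

On each eigenplane every Galois element acts with determinant the cyclotomic character.
-/

set_option autoImplicit false
set_option linter.unusedSectionVars false
set_option linter.style.haveILetI false

noncomputable section

open Module Matrix

namespace Fermat.Agent.Mazur.Eisenstein.Jacobian

open Fermat.Agent.GaloisReps Fermat.Agent.Arith

variable {N r : ℕ} [NeZero N] [Fact r.Prime] (D : HeckeGaloisModel N r)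
variable {O : Type} [CommRing O] [IsDomain O] [IsDiscreteValuationRing O] [CharZero O]
  (ι : ℤ_[r] →+* O) (θ : FullHecke N →+* O) (hp : (r : O) ∈ IsLocalRing.maximalIdeal O)

include hp in
theorem det_eigenAction_eq_chi_of_not_scalarLike {h : GQ}
    (hh : ¬ IsScalarLike (D.eigenAction ι θ h)) :
    LinearMap.det (D.eigenAction ι θ h) = ι (chi r h : ℤ_[r]) := by
  refine sub_eq_zero.mp (HeckeGaloisModel.eq_zero_of_forall_pow_dvd hp fun n => ?_)
  haveI : NeZero (r ^ n) := ⟨pow_ne_zero _ (Fact.out : r.Prime).ne_zero⟩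
  obtain ⟨ζ, hζ⟩ := exists_primitiveRoot (r ^ n)
  obtain ⟨a, ha, haζ⟩ :=
    D.det_cyclotomic_of_not_scalarLike ι θ frobeniusDensity hp hh n hζ.pow_eq_one
  have hchi : PadicInt.toZModPow n (chi r h : ℤ_[r]) = (a : ZMod (r ^ n)) :=
    toZModPow_chi_eq h fun ξ hξ => by
      obtain ⟨k, -, rfl⟩ := hζ.eq_pow_of_pow_eq_one hξ
      rw [map_pow, haζ, ← pow_mul, ← pow_mul, mul_comm]
  have hmem : ((a : ℤ_[r]) - (chi r h : ℤ_[r])) ∈ Ideal.span {(r : ℤ_[r]) ^ n} := by
    rw [← PadicInt.ker_toZModPow, RingHom.mem_ker, map_sub, map_natCast, hchi, sub_self]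
  have hdvd : (r : O) ^ n ∣ (a : O) - ι (chi r h : ℤ_[r]) := by
    have := map_dvd ι (Ideal.mem_span_singleton.mp hmem)
    rwa [map_pow, map_natCast, map_sub, map_natCast] at this
  have h2 := dvd_add ha hdvd
  rwa [sub_add_sub_cancel] at h2

include hp in
theorem det_eigenAction_eq_chi (g : GQ) :
    LinearMap.det (D.eigenAction ι θ g) = ι (chi r g : ℤ_[r]) := by
  by_cases hscal : IsScalarLike (D.eigenAction ι θ g)
  · obtain ⟨c, hc2, hc⟩ := D.exists_conj
    have hcn := D.not_isScalarLike_conj ι θ hc
    have hcgn : ¬ IsScalarLike (D.eigenAction ι θ (c * g)) := by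
      rintro ⟨a, b, ha, hab⟩
      obtain ⟨a', b', ha', hab'⟩ := hscal
      refine hcn ⟨a * b', a' * b, mul_ne_zero ha ?_, fun v => ?_⟩
      · intro hb'
        have hinj : Function.Injective (D.eigenAction ι θ g) := by
          refine Function.LeftInverse.injective (g := D.eigenAction ι θ g⁻¹) fun x => ?_
          rw [← Module.End.mul_apply, ← map_mul, inv_mul_cancel, map_one, Module.End.one_apply]
        have h0 : ∀ x : eigenspace D.hecke θ, x = 0 := fun x => by
          have := hab' x
          rw [hb', zero_smul] at this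
          exact hinj ((smul_eq_zero.mp this).resolve_left ha' |>.trans (map_zero _).symm)
        exact (D.eigenBasis θ).ne_zero 0 (h0 _)
      · have h1 : D.eigenAction ι θ c (a' • D.eigenAction ι θ g v) =
            D.eigenAction ι θ c (b' • v) := by rw [hab' v]
        rw [map_smul, map_smul, ← Module.End.mul_apply, ← map_mul] at h1
        have h2 := congrArg (fun x => a • x) h1
        simp only [smul_comm a a', hab v, smul_smul] at h2
        exact h2.symm
    have e : c * (c * g) = g := by rw [← mul_assoc, hc2, one_mul]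
    have h1 : LinearMap.det (D.eigenAction ι θ (c * (c * g))) =
        ι (chi r (c * (c * g)) : ℤ_[r]) := by
      rw [map_mul (D.eigenAction ι θ), map_mul LinearMap.det,
        det_eigenAction_eq_chi_of_not_scalarLike D ι θ hp hcn,
        det_eigenAction_eq_chi_of_not_scalarLike D ι θ hp hcgn, ← map_mul, ← Units.val_mul,
        ← map_mul (chi r)]
    rwa [e] at h1
  · exact det_eigenAction_eq_chi_of_not_scalarLike D ι θ hp hscal

omit [IsDomain O] [IsDiscreteValuationRing O] [CharZero O] in
/-- Functoriality of the Galois action on eigenvectors in the coefficient ring. -/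
theorem map_eigenAction {R : Type} [CommRing R] (f : O →+* R) (g : GQ)
    (v : eigenspace D.hecke θ) (w : eigenspace D.hecke (f.comp θ))
    (hw : ∀ i, (w : Fin D.d → R) i = f ((v : Fin D.d → O) i)) (i : Fin D.d) :
    f ((D.eigenAction ι θ g v : Fin D.d → O) i) =
      (D.eigenAction (f.comp ι) (f.comp θ) g w : Fin D.d → R) i := by
  rw [HeckeGaloisModel.coe_eigenAction, HeckeGaloisModel.coe_eigenAction]
  simp [Matrix.mulVec, dotProduct, map_sum, hw]

/-- On an eigenplane over `Kr r` the determinant is the cyclotomic character. -/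
theorem det_eigenAction_Kr (θ : FullHecke N →+* Kr r) (g : GQ) :
    LinearMap.det (D.eigenAction (toK r) θ g) = toK r (chi r g : ℤ_[r]) := by
  classical
  have : Finite (IsLocalRing.ResidueField ℤ_[r]) :=
    Finite.of_equiv _ (PadicInt.residueField (p := r)).symm.toEquiv
  have : Module.Finite ℤ (FullHecke N) := IntegralStructure.heckeAlgebra_finite N 2 ∅
  let e : AlgebraicClosure (FractionRing ℤ_[r]) ≃+* Kr r :=
    IsAlgClosure.equivOfEquiv _ _ (FractionRing.algEquiv ℤ_[r] ℚ_[r]).toRingEquiv
  obtain ⟨O', i1, i2, i3, i4, i5, i6, i7, i8, i9, j, θ', -, hjinj, hcomm, hθ'⟩ :=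
    exists_coeffExt ℤ_[r] ((e.symm : Kr r →+* _).comp θ)
  have hpO : (r : O') ∈ IsLocalRing.maximalIdeal O' := by
    rw [← map_natCast (algebraMap ℤ_[r] O') r]
    exact map_nonunit (algebraMap ℤ_[r] O') _ (by
      rw [PadicInt.maximalIdeal_eq_span_p]; exact Ideal.mem_span_singleton_self _)
  let ι' : ℤ_[r] →+* O' := algebraMap ℤ_[r] O'
  let J : O' →+* Kr r := (e : _ →+* Kr r).comp j
  have hJinj : Function.Injective J := e.injective.comp hjinj
  have hJθ : J.comp θ' = θ := RingHom.ext fun a => by
    show e (j (θ' a)) = θ a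
    rw [show j (θ' a) = e.symm (θ a) from RingHom.congr_fun hθ' a, RingEquiv.apply_symm_apply]
  have hJι : J.comp ι' = toK r := RingHom.ext fun a => by
    show e (j (algebraMap ℤ_[r] O' a)) = toK r a
    rw [show j (algebraMap ℤ_[r] O' a) = _ from RingHom.congr_fun hcomm a,
      IsScalarTower.algebraMap_apply ℤ_[r] (FractionRing ℤ_[r]),
      IsAlgClosure.equivOfEquiv_algebraMap]
    show algebraMap ℚ_[r] (Kr r) (FractionRing.algEquiv ℤ_[r] ℚ_[r] _) = _
    rw [AlgEquiv.commutes]
    rfl
  subst hJθ
  rw [← hJι]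
  set b₀ := D.eigenBasis θ'
  let w : Fin 2 → eigenspace D.hecke (J.comp θ') := fun a =>
    ⟨fun i => J ((b₀ a : Fin D.d → O') i), D.map_mem_eigenspace J θ' (b₀ a).2⟩
  have hliw : LinearIndependent (Kr r) w := by
    refine LinearIndependent.of_comp (eigenspace D.hecke (J.comp θ')).subtype ?_
    have hli := b₀.linearIndependent.map' (eigenspace D.hecke θ').subtype (Submodule.ker_subtype _)
    let L : (Fin D.d → O') →ₗ[O'] (Fin D.d → FractionRing O') :=
      (Algebra.linearMap O' (FractionRing O')).compLeft (Fin D.d)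
    have hL : LinearMap.ker L = ⊥ := LinearMap.ker_eq_bot.mpr fun x y h =>
      funext fun i => IsFractionRing.injective O' (FractionRing O') (congrFun h i)
    have hF : LinearIndependent (FractionRing O') fun a => L (b₀ a : Fin D.d → O') := by
      rw [← LinearIndependent.iff_fractionRing O' (FractionRing O')]
      exact hli.map' L hL
    have := linearIndependent_comp_fieldHom (IsFractionRing.lift (K := FractionRing O') hJinj) hF
    convert this using 1
    funext a i
    exact (IsFractionRing.lift_algebraMap (K := FractionRing O') hJinj _).symm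
  let B : Basis (Fin 2) (Kr r) (eigenspace D.hecke (J.comp θ')) :=
    basisOfLinearIndependentOfCardEqFinrank hliw
      (by rw [Fintype.card_fin, D.finrank_eigenspace])
  have hB : ∀ a, B a = w a := fun a => by simp [B]
  have hmat : LinearMap.toMatrix B B (D.eigenAction (J.comp ι') (J.comp θ') g) =
      (D.eigenMatrix ι' θ' g).map J := by
    ext i k
    rw [LinearMap.toMatrix_apply, Matrix.map_apply]
    have key : D.eigenAction (J.comp ι') (J.comp θ') g (B k) =
        ∑ l, J (D.eigenMatrix ι' θ' g l k) • B l := by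
      refine Subtype.ext (funext fun m => ?_)
      rw [← map_eigenAction D ι' θ' J g (b₀ k) (B k) (fun m => by rw [hB]) m]
      have h := congrArg (fun x : eigenspace D.hecke θ' => J ((x : Fin D.d → O') m))
        (b₀.sum_repr (D.eigenAction ι' θ' g (b₀ k)))
      simp only [Fin.sum_univ_two, Submodule.coe_add, SetLike.val_smul, Pi.add_apply,
        Pi.smul_apply, smul_eq_mul, map_add, map_mul] at h ⊢
      rw [← h]
      simp [hB, w, HeckeGaloisModel.eigenMatrix, LinearMap.toMatrix_apply, b₀]
    rw [key, B.repr_sum_self]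
  rw [← LinearMap.det_toMatrix B, hmat, ← RingHom.mapMatrix_apply, ← RingHom.map_det,
    HeckeGaloisModel.eigenMatrix, LinearMap.det_toMatrix,
    det_eigenAction_eq_chi D ι' θ' hpO g]
  rfl

/-- The matrix of a Galois element in a basis of an eigenplane over `Kr r`. -/
theorem exists_planeMat_of_model {N r : ℕ} [NeZero N] [Fact r.Prime] (D : HeckeGaloisModel N r)
    (θ : FullHecke N →+* Kr r) (b : Fin 2 → Fin D.d → Kr r) (hb : LinearIndependent (Kr r) b)
    (hmem : ∀ j, b j ∈ eigenspace D.hecke θ) (g : GQ) :
    ∃ G : Matrix (Fin 2) (Fin 2) (Kr r),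
      (∀ j, (D.gal g).map (toK r) *ᵥ b j = ∑ k, G k j • b k) ∧ G.det = toK r (chi r g) := by
  classical
  let v : Fin 2 → eigenspace D.hecke θ := fun j => ⟨b j, hmem j⟩
  have hv : LinearIndependent (Kr r) v :=
    LinearIndependent.of_comp (eigenspace D.hecke θ).subtype hb
  let B : Basis (Fin 2) (Kr r) (eigenspace D.hecke θ) :=
    basisOfLinearIndependentOfCardEqFinrank hv
      (by rw [Fintype.card_fin, D.finrank_eigenspace])
  have hB : ∀ a, B a = v a := fun a => by simp [B]
  refine ⟨LinearMap.toMatrix B B (D.eigenAction (toK r) θ g), fun j => ?_, ?_⟩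
  · have h := congrArg Subtype.val (B.sum_repr (D.eigenAction (toK r) θ g (B j)))
    rw [HeckeGaloisModel.coe_eigenAction, hB, Submodule.coe_sum] at h
    rw [show b j = (v j : Fin D.d → Kr r) from rfl, ← h]
    refine Finset.sum_congr rfl fun k _ => ?_
    simp only [LinearMap.toMatrix_apply, hB, v, SetLike.val_smul]
  · rw [LinearMap.det_toMatrix, det_eigenAction_Kr]

end Fermat.Agent.Mazur.Eisenstein.Jacobian

end
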