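import Fermat.Agent.Mazur.Eisenstein.Jacobian.Defs
import Fermat.Agent.GaloisReps.OfInjective
import Fermat.Agent.Mazur.Eisenstein.HeckeCommute

/-!
# The Eisenstein character of a fixed eigenclass

A fixed eigenclass of order divisible by `r` has eigenvalue `1 + q` modulo `r` at every prime
`q ∤ pr`; we replace its character by one with exactly these values.
-/

set_option autoImplicit false

noncomputable section

open ModularCurve
open scoped Pointwise

namespace Fermat.Agent.Mazur.Eisenstein.Jacobian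

open Fermat.Agent.GaloisReps Fermat.Agent.Arith

variable {p r : ℕ}

theorem zsmul_eq_of_zmod_eq {G : Type*} [AddCommGroup G] {c : G} (hc : r • c = 0) {a b : ℤ}
    (h : (a : ZMod r) = b) : a • c = b • c := by
  obtain ⟨k, hk⟩ := (ZMod.intCast_eq_intCast_iff_dvd_sub a b r).mp h
  rw [eq_add_of_sub_eq' hk, add_zsmul, mul_comm (r : ℤ) k, mul_zsmul, natCast_zsmul, hc, smul_zero,
    add_zero]

theorem zmod_eq_of_zsmul_eq {G : Type*} [AddCommGroup G] {c : G} (hc : addOrderOf c = r) {a b : ℤ}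
    (h : a • c = b • c) : (a : ZMod r) = b := by
  rw [ZMod.intCast_eq_intCast_iff_dvd_sub, ← hc, addOrderOf_dvd_iff_zsmul_eq_zero, sub_zsmul, h,
    add_neg_cancel]

variable [NeZero p]

/-- The Eisenstein value at a prime. -/
def eisVal (p r : ℕ) (ε : HeckeAlg →+* ℤ) (q : Nat.Primes) : ℤ :=
  if (q : ℕ) ∣ p * r then ε (heckeGen q) else 1 + (q : ℕ)

/-- The normalised character. -/
def eisChar (p r : ℕ) (ε : HeckeAlg →+* ℤ) : HeckeAlg →+* ℤ :=
  MvPolynomial.eval₂Hom (RingHom.id ℤ) (eisVal p r ε)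

theorem eisChar_heckeGen (ε : HeckeAlg →+* ℤ) (q : Nat.Primes) :
    eisChar p r ε (heckeGen q) = eisVal p r ε q :=
  MvPolynomial.eval₂Hom_X' _ _ q

variable [Fact p.Prime] [Fact r.Prime]

theorem cast_eps_heckeGen (hES : CongruenceProperty p r) {c : JZero p}
    (hfix : ∀ σ : GQ, σ • c = c) (hord : addOrderOf c = r) {ε : HeckeAlg →+* ℤ}
    (heig : ∀ t : HeckeAlg, (letI := heckeModuleBar p; t • c) = ε t • c)
    {q : Nat.Primes} (hq : ¬ (q : ℕ) ∣ p * r) :
    (ε (heckeGen q) : ZMod r) = ((1 + (q : ℕ) : ℤ) : ZMod r) := by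
  obtain ⟨A, hA⟩ := exists_liesOverPrime q.2
  obtain ⟨σ, hσ⟩ := exists_isFrobeniusAt hA q.2
  have hmem : c ∈ JTors p r 1 := AlgebraicCurve.Pic0.mem_torsion.mpr (by
    rw [pow_one, natCast_zsmul]
    exact addOrderOf_dvd_iff_nsmul_eq_zero.mp (dvd_of_eq hord))
  have h := (hES q q.2 hq A hA 1 ⟨c, hmem⟩).2 σ hσ
  change σ • σ • c - heckeOperatorBar p q (σ • c) + (q : ℕ) • c = 0 at h
  rw [hfix, hfix, ← heckeModuleBar_heckeGen_smul (heckeOperatorsCommuteBar p), heig] at h
  refine zmod_eq_of_zsmul_eq hord ?_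
  rw [add_zsmul, one_zsmul, natCast_zsmul]
  linear_combination (norm := abel) -h

theorem cast_eisChar (hES : CongruenceProperty p r) {c : JZero p}
    (hfix : ∀ σ : GQ, σ • c = c) (hord : addOrderOf c = r) {ε : HeckeAlg →+* ℤ}
    (heig : ∀ t : HeckeAlg, (letI := heckeModuleBar p; t • c) = ε t • c) (t : HeckeAlg) :
    (eisChar p r ε t : ZMod r) = (ε t : ZMod r) := by
  suffices h : (Int.castRingHom (ZMod r)).comp (eisChar p r ε) =
      (Int.castRingHom (ZMod r)).comp ε from RingHom.congr_fun h t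
  refine MvPolynomial.ringHom_ext (fun a => ?_) fun q => ?_
  · rw [RingHom.comp_apply, RingHom.comp_apply, eisChar, MvPolynomial.eval₂Hom_C]
    exact congrArg _ (RingHom.congr_fun (RingHom.ext_int (ε.comp MvPolynomial.C) (RingHom.id ℤ)) a).symm
  · show ((eisChar p r ε (heckeGen q) : ℤ) : ZMod r) = (ε (heckeGen q) : ZMod r)
    rw [eisChar_heckeGen, eisVal]
    split_ifs with h
    · rfl
    · exact (cast_eps_heckeGen hES hfix hord heig h).symm

end Fermat.Agent.Mazur.Eisenstein.Jacobian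

end
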