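import Fermat.Agent.Mazur.Eisenstein.Jacobian.Main
import Fermat.Agent.Mazur.Eisenstein.StepThree
import Fermat.Agent.FiniteFlat.Injective
import Fermat.Agent.Semistable.Torsion

/-!
# Mazur's lemmas from the order property
-/

set_option autoImplicit false

noncomputable section

open ModularCurve

namespace Fermat.Agent.Mazur.Eisenstein

theorem semistableProperty_self (p : ℕ) [NeZero p] (hp : p.Prime) : SemistableProperty p p :=
  Semistable.semistableProperty p hp dvd_rfl fun h => by
    have := Nat.le_of_dvd hp.pos h
    nlinarith [hp.two_le]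

theorem descentProperty_of_order (p : ℕ) [NeZero p] (hp : p.Prime)
    (hp' : p ∉ ({2, 3, 5, 7, 13} : Finset ℕ)) (hO : OrderProperty p) : DescentProperty p := by
  haveI := Fact.mk hp
  intro r
  exact Jacobian.descentProperty (five_le_of_not_mem hp hp')
    (EichlerShimura.injectiveOnTorsion p) hO (semistableProperty_self p hp)

theorem fixedTorsionProperty_of_order' (hO : ∀ (p : ℕ) [NeZero p], p.Prime → OrderProperty p) :
    ∀ (p : ℕ) [NeZero p], p.Prime → p ∉ ({2, 3, 5, 7, 13} : Finset ℕ) → FixedTorsionProperty p :=
  fun p _ hp _ => Jacobian.fixedTorsionProperty_of_order p hp (hO p hp)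

theorem descentProperty_all (hO : ∀ (p : ℕ) [NeZero p], p.Prime → OrderProperty p) :
    ∀ (p : ℕ) [NeZero p], p.Prime → p ∉ ({2, 3, 5, 7, 13} : Finset ℕ) → DescentProperty p :=
  fun p _ hp hp' => descentProperty_of_order p hp hp' (hO p hp)

/-- Mazur's three place lemma, given the order property. -/
theorem threePlaceLemma_of_order (hO : ∀ (p : ℕ) [NeZero p], p.Prime → OrderProperty p) :
    Large.ThreePlaceLemma :=
  threePlaceLemma (fun p _ _ => EichlerShimura.injectiveOnTorsion p) (descentProperty_all hO)
    (fixedTorsionProperty_of_order' hO)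

end Fermat.Agent.Mazur.Eisenstein

end
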