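import Fermat.Agent.Mazur.Eisenstein.Assembly
import Fermat.Agent.Mazur.Eisenstein.Connected
import Fermat.Agent.Mazur.Eisenstein.CycInertia
import Fermat.Agent.Mazur.Eisenstein.Inputs
import Fermat.Agent.Mazur.Eisenstein.GalData

/-!
# Fixed points of order `r` do not reduce to zero at `r`

Galois orders on the torsion force inertia at `r` to act through the cyclotomic character on
points reducing to zero, so a fixed such point of odd prime order vanishes.
-/

set_option autoImplicit false
set_option linter.style.haveILetI false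

noncomputable section

open ModularCurve
open Fermat.Agent.Arith

namespace Fermat.Agent.Mazur.Eisenstein.Jacobian

/-- The Galois orders imply that fixed torsion of odd prime order injects into the reduction. -/
theorem fixedTorsionProperty_of_order (p : ℕ) [NeZero p] (hp : p.Prime) (hord : OrderProperty p) :
    FixedTorsionProperty p := by
  classical
  intro r hr hr2 hrp A hA x hfix hrx hker
  haveI := Fact.mk hr
  have hrp' : ¬ r ∣ p := fun h => hrp ((Nat.prime_dvd_prime_iff_eq hr hp).mp h)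
  obtain ⟨M, _, _, _, i, O, hinj, heq, hsurj, hcong⟩ := hord r hr hrp' A hA 1
  obtain ⟨y, rfl⟩ := hsurj x (by rw [pow_one]; exact hrx)
  have hyfix : ∀ g : GQ, g • y = y := fun g => hinj (by rw [heq]; exact hfix g)
  have hry : r • y = 0 := hinj (by rw [map_nsmul, map_zero]; exact hrx)
  by_contra hne
  have hy0 : y ≠ 0 := fun h => hne (by rw [h, map_zero])
  have hordy : addOrderOf y = r := addOrderOf_eq_prime hry hy0
  set S := AddSubgroup.zmultiples y with hS
  have htriv : ∀ g : A.inertiaSubgroupIn ℚ, ∀ z ∈ S, g • z = z := by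
    rintro g z ⟨k, rfl⟩
    rw [Subgroup.smul_def, show (g : GQ) • k • y = k • ((g : GQ) • y) from
      map_zsmul (DistribSMul.toAddMonoidHom M (g : GQ)) k y, hyfix]
  have hstab : ∀ g : A.inertiaSubgroupIn ℚ, ∀ z ∈ S, g • z ∈ S := fun g z hz => by
    rw [htriv g z hz]; exact hz
  have hadm : letI := subAction S hstab; IsAdmissible S r (1 : A.inertiaSubgroupIn ℚ →* (ZMod r)ˣ) := by
    letI := subAction S hstab
    have htS : ∀ (g : A.inertiaSubgroupIn ℚ) (z : S), g • z = z :=
      fun g z => Subtype.ext (htriv g z z.2)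
    refine ⟨fun z => ⟨1, Subtype.ext ?_⟩, fun g z => ⟨1, ?_⟩⟩
    · obtain ⟨k, hk⟩ := z.2
      show r ^ 1 • (z : M) = 0
      rw [← hk, pow_one, smul_comm, hry, smul_zero]
    · rw [Function.iterate_one]
      show g • (g • z) - g • z - _ • (g • z) + _ • z = 0
      rw [htS, htS]
      abel
  have hcongS : ∀ f ∈ O.H, ∀ z ∈ S, f z - f 0 ∈ A.nonunits := by
    rintro f hf z ⟨k, rfl⟩
    refine hcong f hf _ (reductionModL_eq_zero_of_mem ?_)
    rw [map_zsmul]
    exact zsmul_mem hker k
  obtain ⟨σ, hσ, hσinv⟩ := exists_inertia_inv hA hr 1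
  set e := Monoid.exponent (Multiplicative M) with he
  haveI : NeZero e := ⟨Monoid.exponent_ne_zero_of_finite⟩
  set c : ℕ := (cyc e σ : ZMod e).val with hc
  have h1 := inertia_smul_of_congruent hA hr O 1 S hstab hadm hcongS hσ
    (c := c) (fun ζ hζ => cyc_spec σ hζ) (x := y) (AddSubgroup.mem_zmultiples y)
  rw [hyfix] at h1
  have hre : r ∣ e := by
    rw [← hordy, he, Monoid.exponent_multiplicative]
    exact AddMonoid.addOrder_dvd_exponent y
  haveI : NeZero r := ⟨hr.ne_zero⟩
  obtain ⟨ζ, hζ⟩ := HasEnoughRootsOfUnity.exists_primitiveRoot QBar r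
  have hσζ : σ ζ = ζ ^ c := by
    obtain ⟨d, hd⟩ := hre
    exact cyc_spec σ (by rw [hd, pow_mul, hζ.pow_eq_one, one_pow])
  have hc1 : ζ ^ c = ζ := by
    conv_rhs => rw [← pow_one ζ]
    have hmod : c ≡ 1 [MOD r] := by
      rw [← hordy, ← nsmul_eq_nsmul_iff_modEq, one_nsmul]
      exact h1.symm
    rw [← pow_mod_orderOf ζ c, ← pow_mod_orderOf ζ 1, ← hζ.eq_orderOf, hmod]
  rw [hc1, hσinv ζ (by rw [pow_one]; exact hζ.pow_eq_one)] at hσζ
  have h2 : ζ ^ 2 = 1 := by
    rw [sq]
    calc ζ * ζ = ζ⁻¹ * ζ := by rw [hσζ]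
      _ = 1 := inv_mul_cancel₀ (hζ.ne_zero hr.ne_zero)
  exact hr2 ((Nat.prime_dvd_prime_iff_eq hr Nat.prime_two).mp (hζ.dvd_of_pow_eq_one 2 h2))

end Fermat.Agent.Mazur.Eisenstein.Jacobian
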