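import Fermat.Agent.Mazur.Eisenstein.Jacobian.Defs
import Fermat.Agent.GaloisReps.LatticeHecke
import Fermat.Agent.GaloisReps.EigenPlane
import Fermat.Agent.Newforms.Semisimple

/-!
# The planes of the lattice of `J₀(p)`

For prime `p` the full Hecke algebra is diagonalisable on cusp forms, so over an algebraically
closed field of characteristic zero the lattice is the sum of planes on which it acts by
distinct characters.
-/

set_option autoImplicit false
set_option linter.unusedSectionVars false
set_option linter.style.haveILetI false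

noncomputable section

open CongruenceSubgroup ModularFormClass ModularCurve Module Matrix

namespace Fermat.Agent.Mazur.Eisenstein.Jacobian

open Fermat.Agent.GaloisReps

section Generic

variable {A : Type} [CommRing A] {d : ℕ} (h : A →+* Matrix (Fin d) (Fin d) ℤ)

/-- Eigenvectors for distinct characters with sum zero are zero. -/
theorem eigen_eq_zero_of_sum {R : Type} [Field R] {ι : Type} (θ : ι → A →+* R)
    (hθ : Function.Injective θ) (s : Finset ι) :
    ∀ v : ι → Fin d → R, (∀ i ∈ s, v i ∈ eigenspace h (θ i)) → ∑ i ∈ s, v i = 0 →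
      ∀ i ∈ s, v i = 0 := by
  classical
  induction s using Finset.induction_on with
  | empty => simp
  | @insert a s ha ih =>
    intro v hv hsum
    rw [Finset.sum_insert ha] at hsum
    have key : ∀ i ∈ s, v i = 0 := by
      have h1 : ∀ t : A, ∀ i ∈ s, (θ i t - θ a t) • v i = 0 := by
        intro t
        refine ih (fun i => (θ i t - θ a t) • v i)
          (fun i hi => Submodule.smul_mem _ _ (hv i (Finset.mem_insert_of_mem hi))) ?_
        have h2 := congrArg (fun w => matIn h R t *ᵥ w - θ a t • w) hsum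
        have he : ∀ i ∈ insert a s, matIn h R t *ᵥ v i = θ i t • v i := fun i hi =>
          (mem_eigenspace h _ _).1 (hv i hi) t
        simp only [Matrix.mulVec_add, Matrix.mulVec_sum, smul_add, Matrix.mulVec_zero, smul_zero,
          sub_zero] at h2
        rw [he a (Finset.mem_insert_self _ _),
          Finset.sum_congr rfl fun i hi => he i (Finset.mem_insert_of_mem hi), Finset.smul_sum,
          add_sub_add_left_eq_sub, ← Finset.sum_sub_distrib] at h2
        rw [← h2]
        simp only [sub_smul]
      intro i hi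
      obtain ⟨t, ht⟩ : ∃ t, θ i t ≠ θ a t := by
        by_contra! hne
        exact ha (hθ (RingHom.ext hne) ▸ hi)
      exact (smul_eq_zero.1 (h1 t i hi)).resolve_left (sub_ne_zero.2 ht)
    intro i hi
    rcases Finset.mem_insert.1 hi with rfl | hi
    · rwa [Finset.sum_eq_zero key, add_zero] at hsum
    · exact key i hi

/-- Bases of eigenspaces for distinct characters are jointly independent. -/
theorem linearIndependent_eigenBases {R : Type} [Field R] {n : ℕ} (θ : Fin n → A →+* R)
    (hθ : Function.Injective θ) (b : ∀ i, Basis (Fin 2) R (eigenspace h (θ i))) :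
    LinearIndependent R fun x : Fin n × Fin 2 => (b x.1 x.2 : Fin d → R) := by
  rw [Fintype.linearIndependent_iff]
  intro g hg x
  rw [Fintype.sum_prod_type] at hg
  have h0 := eigen_eq_zero_of_sum h θ hθ Finset.univ
    (fun i => ((∑ j, g (i, j) • b i j : eigenspace h (θ i)) : Fin d → R))
    (fun i _ => Submodule.coe_mem _) (by simpa using hg) x.1 (Finset.mem_univ _)
  exact Fintype.linearIndependent_iff.1 (b x.1).linearIndependent (fun j => g (x.1, j))
    (Subtype.ext h0) x.2

/-- The dimension of an eigenspace is invariant under field extensions. -/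
theorem finrank_eigenspace_ringHom [Module.Finite ℤ A] {K L : Type} [Field K] [Field L]
    (f : K →+* L) (θ : A →+* K) :
    finrank L (eigenspace h (f.comp θ)) = finrank K (eigenspace h θ) := by
  classical
  obtain ⟨r, t, ht⟩ := Submodule.fg_iff_exists_fin_generating_family.mp
    (Module.Finite.fg_top (R := ℤ) (M := A))
  let M : Matrix (Fin r × Fin d) (Fin d) K :=
    fun x j => (matIn h K (t x.1)) x.2 j - if x.2 = j then θ (t x.1) else 0
  have key : ∀ {R : Type} [CommRing R] (g : K →+* R),
      eigenspace h (g.comp θ) = LinearMap.ker (M.map g).mulVecLin := by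
    intro R _ g
    ext v
    have hgen : v ∈ eigenspace h (g.comp θ) ↔
        ∀ a, (matIn h R (t a)).mulVec v = g.comp θ (t a) • v := by
      rw [mem_eigenspace]
      refine ⟨fun h a => h (t a), fun hv x => ?_⟩
      have hx : x ∈ Submodule.span ℤ (Set.range t) := ht ▸ Submodule.mem_top
      induction hx using Submodule.span_induction with
      | mem x hx => obtain ⟨a, rfl⟩ := hx; exact hv a
      | zero => simp
      | add x y _ _ hx hy => rw [map_add, map_add, Matrix.add_mulVec, hx, hy, add_smul]
      | smul c x _ hx => rw [map_zsmul, map_zsmul, Matrix.smul_mulVec, hx, smul_assoc]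
    rw [hgen, LinearMap.mem_ker, Matrix.mulVecLin_apply, funext_iff, Prod.forall]
    refine forall_congr' fun a => ?_
    rw [funext_iff]
    refine forall_congr' fun i => ?_
    have : (M.map g).mulVec v (a, i) =
        (matIn h R (t a)).mulVec v i - g (θ (t a)) * v i := by
      simp [Matrix.mulVec, dotProduct, Matrix.map, M, sub_mul, Finset.sum_sub_distrib, apply_ite g]
    simp only [this, Pi.zero_apply, sub_eq_zero, RingHom.comp_apply, Pi.smul_apply, smul_eq_mul]
  have h1 := key (RingHom.id K)
  rw [RingHom.id_comp] at h1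
  simp only [show M.map (RingHom.id K) = M from Matrix.ext fun _ _ => rfl] at h1
  rw [key f, h1, GaloisReps.finrank_ker_map]

end Generic

section Hecke

theorem genus_one : Gamma0.genus 1 = 0 := by
  have h := Gamma0.genus_eq 1
  have h2 : ModularCurve.nuTwo 1 = 1 := by
    haveI : Subsingleton {x : ZMod 1 // x ^ 2 + 1 = 0} := inferInstance
    exact Nat.card_eq_one_iff_unique.2 ⟨inferInstance, ⟨⟨0, Subsingleton.elim _ _⟩⟩⟩
  have h3 : ModularCurve.nuThree 1 = 1 :=
    Nat.card_eq_one_iff_unique.2 ⟨inferInstance, ⟨⟨0, Subsingleton.elim _ _⟩⟩⟩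
  rw [ModularCurve.genusFormula, h2, h3, ModularCurve.cuspCount_one] at h
  have h4 : ModularCurve.dedekindPsi 1 = 1 := by simp [ModularCurve.dedekindPsi, Finset.filter_singleton]
  rw [h4] at h
  norm_num at h
  exact h

theorem cuspForm_one_eq_zero (f : CuspForm (Gamma0 1) 2) : f = 0 := by
  haveI := IntegralStructure.finiteDimensional_cuspForm 1
  have h : finrank ℂ (CuspForm (Gamma0 1) 2) = 0 := by
    have h := (Poincare.finrank_cuspForm_two 1).trans (Gamma0.genus_eq 1).symm
    rw [genus_one] at h
    exact_mod_cast h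
  haveI := Module.finrank_zero_iff.1 h
  exact Subsingleton.elim _ _

variable (p : ℕ) [NeZero p]

/-- At prime level the forms are spanned by eigenforms of the whole Hecke algebra. -/
theorem iSup_formEigen (hp : p.Prime) :
    ⨆ θ : FullHecke p →+* ℂ, formEigen θ = ⊤ := by
  classical
  rw [eq_top_iff, ← Newforms.span_eigenvectors_eq_top, Submodule.span_le]
  intro f hf
  rcases eq_or_ne f 0 with rfl | hf0
  · exact zero_mem _
  choose c hc using hf
  set lam : ℕ → ℂ := fun l => if h : l.Prime ∧ ¬ l ∣ p then c l h.1 h.2 else 0 with hlam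
  have hfl : ∀ l (hl : l.Prime), ¬ l ∣ p → Newforms.hOp p hl f = lam l • f := fun l hl hlp => by
    rw [hlam]
    simp only [dif_pos (And.intro hl hlp)]
    exact hc l hl hlp
  obtain ⟨g, hg, hgl⟩ := Newforms.exists_eigenform_of_eigen hf0 (fun l => ¬ l ∣ p) lam hfl
  have hnew : g.IsNewform := by
    refine ⟨hg, fun M hM hne => ?_⟩
    rcases (Nat.dvd_prime hp).1 hM with rfl | rfl
    · rintro ⟨u, hu, -⟩
      exact hu.ne_zero (cuspForm_one_eq_zero u)
    · exact absurd rfl hne
  have hfg := Newforms.eq_smul_of_eigen hnew (f := f) fun l hl hlp => by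
    rw [hgl l hl hlp, hfl l hl hlp]
  have hex : ∀ t : FullHecke p, ∃ z : ℂ, t.1 g = z • g := by
    rintro ⟨t, ht⟩
    induction ht using Algebra.adjoin_induction with
    | mem x hx =>
      rcases hx with ⟨l, hl, hlN, -, rfl⟩ | ⟨q, hqN, hq, -, rfl⟩
      · refine ⟨qCoeff g l, ?_⟩
        show (CuspForm.heckeTLin 2 hl hlN) g = _
        rw [← Newforms.hOp_eq_heckeTLin hl hlN]
        exact Newforms.hOp_of_isNormalizedEigenform hg hl
      · refine ⟨qCoeff g q, ?_⟩
        show (CuspForm.heckeULin 2 hqN) g = _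
        rw [← Newforms.hOp_eq_heckeULin hq hqN]
        exact Newforms.hOp_of_isNormalizedEigenform hg hq
    | algebraMap z =>
      refine ⟨(z : ℂ), ?_⟩
      show (algebraMap ℤ (Module.End ℂ (CuspForm (Gamma0 p) 2)) z) g = _
      rw [eq_intCast, Module.End.intCast_apply, Int.cast_smul_eq_zsmul]
    | add a b _ _ iha ihb =>
      obtain ⟨x, hx⟩ := iha
      obtain ⟨y, hy⟩ := ihb
      exact ⟨x + y, by simp only [LinearMap.add_apply] at hx hy ⊢; rw [hx, hy, add_smul]⟩
    | mul a b _ _ iha ihb =>
      obtain ⟨x, hx⟩ := iha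
      obtain ⟨y, hy⟩ := ihb
      refine ⟨y * x, ?_⟩
      simp only [Module.End.mul_apply] at hx hy ⊢
      rw [hy, map_smul, hx, smul_smul]
  choose z hz using hex
  have hg0 := hg.ne_zero
  have hinj := smul_left_injective ℂ hg0
  let θ : FullHecke p →+* ℂ :=
    { toFun := z
      map_one' := hinj (by simp [← hz])
      map_mul' := fun a b => hinj <| by
        show z (a * b) • g = (z a * z b) • g
        rw [← hz, Subalgebra.coe_mul, Module.End.mul_apply, hz b, map_smul, hz a, smul_smul,
          mul_comm]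
      map_zero' := hinj (by simp [← hz])
      map_add' := fun a b => hinj <| by
        show z (a + b) • g = (z a + z b) • g
        rw [← hz, Subalgebra.coe_add, LinearMap.add_apply, hz a, hz b, add_smul] }
  rw [SetLike.mem_coe, hfg]
  exact Submodule.smul_mem _ _ (Submodule.mem_iSup_of_mem θ ((mem_formEigen θ g).2 hz))

/-- Over `ℂ` the lattice is spanned by the eigenspaces. -/
theorem iSup_eigenspace (hp : p.Prime) :
    ⨆ θ : FullHecke p →+* ℂ, eigenspace (latticeMat p) θ = ⊤ := by
  rw [eq_top_iff]
  rintro v -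
  obtain ⟨⟨f, g⟩, rfl⟩ := (periodCoord p).surjective v
  set S := ⨆ θ : FullHecke p →+* ℂ, eigenspace (latticeMat p) θ
  have hl : ∀ f, periodCoord p (f, 0) ∈ S := fun f => by
    have hf : f ∈ ⨆ θ : FullHecke p →+* ℂ, formEigen θ := iSup_formEigen p hp ▸ Submodule.mem_top
    have hle : (⨆ θ : FullHecke p →+* ℂ, formEigen θ) ≤
        S.comap ((periodCoord p).toLinearMap.comp (LinearMap.inl ℂ _ _)) := iSup_le fun θ x hx =>
      Submodule.mem_iSup_of_mem θ ((periodCoord_mem_eigenspace θ x 0).2 ⟨hx, zero_mem _⟩)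
    exact hle hf
  have hr : ∀ f, periodCoord p (0, f) ∈ S := fun f => by
    have hf : f ∈ ⨆ θ : FullHecke p →+* ℂ, formEigen θ := iSup_formEigen p hp ▸ Submodule.mem_top
    have hle : (⨆ θ : FullHecke p →+* ℂ, formEigen θ) ≤
        S.comap ((periodCoord p).toLinearMap.comp (LinearMap.inr ℂ _ _)) := iSup_le fun θ x hx =>
      Submodule.mem_iSup_of_mem θ ((periodCoord_mem_eigenspace θ 0 x).2 ⟨zero_mem _, hx⟩)
    exact hle hf
  have := add_mem (hl f) (hr g)
  rwa [← map_add, Prod.mk_add_mk, add_zero, zero_add] at this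

/-- There are exactly `g` characters. -/
theorem exists_characters (hp : p.Prime) :
    ∃ θ : Fin (Gamma0.genus p) → FullHecke p →+* ℂ, Function.Injective θ := by
  classical
  by_contra! hno
  haveI hfin : Finite (FullHecke p →+* ℂ) := by
    by_contra hinf
    rw [not_finite_iff_infinite] at hinf
    obtain ⟨e⟩ : Nonempty (ℕ ↪ (FullHecke p →+* ℂ)) := ⟨Infinite.natEmbedding _⟩
    exact hno (fun i => e i.val) (e.injective.comp Fin.val_injective)
  let _ := Fintype.ofFinite (FullHecke p →+* ℂ)
  have hlt : Fintype.card (FullHecke p →+* ℂ) < Gamma0.genus p := by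
    by_contra hle
    exact hno ((Fintype.equivFin _).symm ∘ Fin.castLE (not_lt.1 hle))
      ((Fintype.equivFin _).symm.injective.comp (Fin.castLE_injective _))
  let L : (∀ θ : FullHecke p →+* ℂ, eigenspace (latticeMat p) θ) →ₗ[ℂ]
      (Fin (2 * Gamma0.genus p) → ℂ) :=
    ∑ θ, (eigenspace (latticeMat p) θ).subtype.comp (LinearMap.proj θ)
  have hL : LinearMap.range L = ⊤ := by
    rw [eq_top_iff, ← iSup_eigenspace p hp]
    refine iSup_le fun θ v hv => ⟨Pi.single θ ⟨v, hv⟩, ?_⟩
    simp only [L, LinearMap.sum_apply, LinearMap.comp_apply, LinearMap.proj_apply,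
      Submodule.subtype_apply]
    rw [Finset.sum_eq_single θ (fun b _ hb => by simp [Pi.single_eq_of_ne hb]) (by simp)]
    simp
  have h := LinearMap.finrank_range_le L
  rw [hL, finrank_top, finrank_fin_fun, Module.finrank_pi_fintype] at h
  simp only [finrank_eigenspace_latticeMat, Finset.sum_const, Finset.card_univ, smul_eq_mul] at h
  omega

theorem toFull_surjective : Function.Surjective (toFull p) := by
  rintro ⟨t, ht⟩
  have hgen : ∀ (l : ℕ) (hl : l.Prime), ∃ s, (toFull p s).1 = (HeckeDuality.heckeOp p 2 l hl).1 :=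
    fun l hl => ⟨heckeGen ⟨l, hl⟩, congrArg Subtype.val (toFull_heckeGen p ⟨l, hl⟩)⟩
  suffices ∃ s, (toFull p s).1 = t from this.imp fun s hs => Subtype.ext hs
  induction ht using Algebra.adjoin_induction with
  | mem x hx =>
    rcases hx with ⟨l, hl, hlN, -, rfl⟩ | ⟨q, hqN, hq, -, rfl⟩
    · obtain ⟨s, hs⟩ := hgen l hl
      exact ⟨s, hs.trans (by rw [HeckeDuality.heckeOp, dif_neg hlN]; rfl)⟩
    · obtain ⟨s, hs⟩ := hgen q hq
      exact ⟨s, hs.trans (by rw [HeckeDuality.heckeOp, dif_pos hqN]; rfl)⟩
  | algebraMap z => exact ⟨(z : HeckeAlg), by rw [map_intCast, eq_intCast]; rfl⟩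
  | add a b _ _ iha ihb =>
    obtain ⟨x, hx⟩ := iha
    obtain ⟨y, hy⟩ := ihb
    exact ⟨x + y, by rw [map_add, Subalgebra.coe_add, hx, hy]⟩
  | mul a b _ _ iha ihb =>
    obtain ⟨x, hx⟩ := iha
    obtain ⟨y, hy⟩ := ihb
    exact ⟨x * y, by rw [map_mul, Subalgebra.coe_mul, hx, hy]⟩

/-- Over an algebraically closed field of characteristic zero the lattice is a sum of planes
belonging to distinct characters. -/
theorem exists_plane_basis (p : ℕ) [NeZero p] (hp : p.Prime) (K : Type) [Field K] [IsAlgClosed K]
    [CharZero K] :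
    ∃ (n : ℕ) (theta : Fin n → HeckeAlg →+* K)
      (b : Basis (Fin n × Fin 2) K (Fin (2 * Gamma0.genus p) → K)),
      Function.Injective theta ∧ (∀ i, ∃ θ : FullHecke p →+* K, theta i = θ.comp (toFull p)) ∧
      ∀ (t : HeckeAlg) (x : Fin n × Fin 2),
        (latMat p t).map (Int.castRingHom K) *ᵥ b x = theta x.1 t • b x := by
  classical
  obtain ⟨θ, hθ⟩ := exists_characters p hp
  set K₀ : IntermediateField ℚ ℂ := IntermediateField.adjoin ℚ (⋃ i, Set.range (θ i))
  haveI halg : Algebra.IsAlgebraic ℚ K₀ := by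
    refine IntermediateField.isAlgebraic_adjoin ?_
    intro x hx
    obtain ⟨i, a, rfl⟩ := Set.mem_iUnion.1 hx
    exact ((Algebra.IsIntegral.isIntegral (R := ℤ) a).map (θ i).toIntAlgHom).tower_top
  let θ₀ : Fin (Gamma0.genus p) → FullHecke p →+* K₀ := fun i =>
    (θ i).codRestrict K₀ fun a =>
      IntermediateField.subset_adjoin ℚ _ (Set.mem_iUnion.2 ⟨i, a, rfl⟩)
  let κ : K₀ →+* K := (IsAlgClosed.lift : K₀ →ₐ[ℚ] K).toRingHom
  have h2 : ∀ i, finrank K (eigenspace (latticeMat p) (κ.comp (θ₀ i))) = 2 := fun i => by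
    rw [finrank_eigenspace_ringHom, ← finrank_eigenspace_ringHom (latticeMat p) (algebraMap K₀ ℂ)]
    exact finrank_eigenspace_latticeMat (N := p) (θ i)
  let b := fun i => Module.finBasisOfFinrankEq K _ (h2 i)
  have hinj : Function.Injective fun i => κ.comp (θ₀ i) := fun i j hij =>
    hθ (RingHom.ext fun a => congrArg Subtype.val (κ.injective (RingHom.congr_fun hij a)))
  have hli := linearIndependent_eigenBases (latticeMat p) (fun i => κ.comp (θ₀ i)) hinj b
  have hcard : Fintype.card (Fin (Gamma0.genus p) × Fin 2) =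
      finrank K (Fin (2 * Gamma0.genus p) → K) := by
    rw [Fintype.card_prod, Fintype.card_fin, Fintype.card_fin, finrank_fin_fun, mul_comm]
  by_cases hg : Gamma0.genus p = 0
  · refine ⟨0, fun i => i.elim0, ((Pi.basisFun K _).reindex
      (Fintype.equivOfCardEq (by simp [hg]))), fun i => i.elim0, fun i => i.elim0,
      fun t x => x.1.elim0⟩
  haveI : Nonempty (Fin (Gamma0.genus p) × Fin 2) :=
    ⟨(⟨0, Nat.pos_of_ne_zero hg⟩, 0)⟩
  refine ⟨Gamma0.genus p, fun i => (κ.comp (θ₀ i)).comp (toFull p),
    basisOfLinearIndependentOfCardEqFinrank hli hcard, fun i j hij => hinj ?_,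
    fun i => ⟨_, rfl⟩, fun t x => ?_⟩
  · exact RingHom.ext fun a => by
      obtain ⟨s, rfl⟩ := toFull_surjective p a
      exact RingHom.congr_fun hij s
  · rw [coe_basisOfLinearIndependentOfCardEqFinrank]
    exact (mem_eigenspace (latticeMat p) _ _).1 (b x.1 x.2).2 (toFull p t)

end Hecke

end Fermat.Agent.Mazur.Eisenstein.Jacobian

end
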