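import Fermat.Agent.Mazur.Eisenstein.Jacobian.Defs
import Fermat.Agent.Mazur.Eisenstein.HeckeCommute

/-!
# The torsion of `J₀(N)` in coordinates
-/

set_option autoImplicit false
set_option linter.unusedSectionVars false

noncomputable section

open ModularCurve AlgebraicCurve Matrix
open scoped Pointwise

namespace Fermat.Agent.Mazur.Eisenstein.Jacobian

open Fermat.Agent.GaloisReps Fermat.Agent.Arith MordellWeil

variable {N r : ℕ} [NeZero N] [Fact r.Prime]

theorem mem_jTors_iff (m : ℕ) (x : JZero N) : x ∈ JTors N r m ↔ r ^ m • x = 0 := by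
  rw [Pic0.mem_torsion, natCast_zsmul]

theorem torsMap_apply (m : ℕ) (v : Fin (2 * Gamma0.genus N) → ZMod (r ^ m)) :
    torsMap N r m v = ((iso N r).psi m).symm v :=
  rfl

theorem torsMap_injective (m : ℕ) : Function.Injective (torsMap N r m) := fun _ _ h =>
  ((iso N r).psi m).symm.injective (Subtype.ext h)

theorem torsMap_psi (m : ℕ) (x : JTors N r m) :
    torsMap N r m ((iso N r).psi m x) = x := by
  rw [torsMap_apply, AddEquiv.symm_apply_apply]

theorem exists_torsMap_eq (m : ℕ) (x : JZero N) (hx : r ^ m • x = 0) :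
    ∃ v, torsMap N r m v = x :=
  ⟨_, torsMap_psi m ⟨x, (mem_jTors_iff m x).mpr hx⟩⟩

theorem exists_jTors_eq (m : ℕ) (v : Fin (2 * Gamma0.genus N) → ZMod (r ^ m)) :
    ∃ x : JTors N r m, (iso N r).psi m x = v :=
  ((iso N r).psi m).surjective v

theorem torsMap_compat (m : ℕ) (v : Fin (2 * Gamma0.genus N) → ℤ_[r]) :
    r • torsMap N r (m + 1) (redVec r _ (m + 1) v) = torsMap N r m (redVec r _ m v) := by
  obtain ⟨z, hz⟩ := exists_jTors_eq (m + 1) (redVec r _ (m + 1) v)
  have hmem : r • (z : JZero N) ∈ JTors N r m := by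
    rw [mem_jTors_iff, ← mul_smul, ← pow_succ]
    exact (mem_jTors_iff (m + 1) _).mp z.2
  have key : (iso N r).psi m ⟨_, hmem⟩ = redVec r _ m v := by
    have h : (iso N r).psi m ⟨_, hmem⟩ =
        ⇑(ZMod.castHom (pow_dvd_pow r m.le_succ) (ZMod (r ^ m))) ∘ (iso N r).psi (m + 1) z := by
      rw [TorsionIso.psi_apply, TorsionIso.psi_apply, (iso N r).compat m z ⟨_, hmem⟩ rfl]
      rfl
    rw [h, hz]
    funext i
    exact RingHom.congr_fun (cast_castRingHom m) (v i)
  rw [← hz, torsMap_psi, ← key, torsMap_psi]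

theorem redVec_mulVec (m : ℕ) (M : Matrix (Fin (2 * Gamma0.genus N)) (Fin (2 * Gamma0.genus N)) ℤ_[r])
    (v : Fin (2 * Gamma0.genus N) → ℤ_[r]) :
    redVec r _ m (M *ᵥ v) = M.map (PadicInt.toZModPow m) *ᵥ redVec r _ m v :=
  funext fun i => RingHom.map_mulVec (PadicInt.toZModPow m) M v i

theorem torsMap_gal (m : ℕ) (g : GQ) (v : Fin (2 * Gamma0.genus N) → ℤ_[r]) :
    g • torsMap N r m (redVec r _ m v) = torsMap N r m (redVec r _ m (latGal N r g *ᵥ v)) := by
  obtain ⟨x, hx⟩ := exists_jTors_eq m (redVec r _ m v)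
  rw [redVec_mulVec, latGal, TorsionIso.map_gal, ← hx, TorsionIso.galLvl_mulVec, torsMap_psi,
    torsMap_psi]
  rfl

theorem latGal_latMat (hES : CongruenceProperty N r) (g : GQ) (t : HeckeAlg) :
    latGal N r g * intMat r (latMat N t) = intMat r (latMat N t) * latGal N r g :=
  ((iso N r).gal_commute (torsionGalois N r hES) g (toFull N t)).eq

theorem torsMap_heckeGen (h : HeckeOperatorsCommuteBar N) (m : ℕ) (l : Nat.Primes)
    (v : Fin (2 * Gamma0.genus N) → ℤ_[r]) :
    (letI := heckeModuleBar N; heckeGen l • torsMap N r m (redVec r _ m v)) =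
      torsMap N r m (redVec r _ m (intMat r (latMat N (heckeGen l)) *ᵥ v)) := by
  obtain ⟨x, hx⟩ := exists_jTors_eq m (redVec r _ m v)
  rw [heckeModuleBar_heckeGen_smul h, redVec_mulVec,
    show intMat r (latMat N (heckeGen l)) = (opMat N l l.2).map (Int.castRingHom ℤ_[r]) by
      rw [latMat, RingHom.comp_apply, toFull_heckeGen, latticeMat_heckeOp]; rfl,
    map_intCast_toZModPow, ← TorsionIso.mat_heckeTors (iso N r), ← hx, TorsionIso.mat_mulVec,
    torsMap_psi, torsMap_psi]
  rfl

theorem torsMap_mat (h : HeckeOperatorsCommuteBar N) (m : ℕ) (t : HeckeAlg)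
    (v : Fin (2 * Gamma0.genus N) → ℤ_[r]) :
    (letI := heckeModuleBar N; t • torsMap N r m (redVec r _ m v)) =
      torsMap N r m (redVec r _ m (intMat r (latMat N t) *ᵥ v)) := by
  letI := heckeModuleBar N
  induction t using MvPolynomial.induction_on generalizing v with
  | C a =>
    have e : intMat r (latMat N (MvPolynomial.C a)) = (a : Matrix _ _ ℤ_[r]) := by
      rw [show latMat N (MvPolynomial.C a) = ((latMat N).comp MvPolynomial.C) a from rfl,
        eq_intCast, map_intCast]
    rw [heckeModuleBar_C_smul, e, Matrix.intCast_mulVec, Int.cast_smul_eq_zsmul, map_zsmul, map_zsmul]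
  | add f g hf hg => rw [add_smul, hf, hg, map_add, map_add, add_mulVec, map_add, map_add]
  | mul_X f l hf =>
    show (f * heckeGen l) • torsMap N r m (redVec r _ m v) = _
    rw [mul_smul, torsMap_heckeGen h, hf, mulVec_mulVec, ← map_mul, ← map_mul]
    rfl

theorem exists_open_fix [Fact N.Prime] (x : JZero N) :
    ∃ H : Subgroup GQ, IsOpen (H : Set GQ) ∧ ∀ h ∈ H, h • x = x := by
  obtain ⟨L, hL, hfix⟩ := (x0GalAct N).exists_field_fix x
  exact ⟨L.fixingSubgroup, L.fixingSubgroup_isOpen, fun σ hσ =>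
    hfix σ fun z hz => (IntermediateField.mem_fixingSubgroup_iff _ _).mp hσ z hz⟩

theorem exists_divide (x : JZero N) : ∃ y : JZero N, r • y = x :=
  jZero_exists_nsmul_eq N r (Fact.out : r.Prime).pos x

end Fermat.Agent.Mazur.Eisenstein.Jacobian

end
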