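import Fermat.Agent.Mazur.Eisenstein.Jacobian.EigenChar
import Fermat.Agent.Mazur.Eisenstein.Jacobian.Torsion
import Fermat.Agent.Mazur.Eisenstein.Jacobian.Planes
import Fermat.Agent.Mazur.Eisenstein.Jacobian.Det
import Fermat.Agent.Mazur.Eisenstein.Jacobian.Fixed
import Fermat.Agent.Mazur.Eisenstein.Descent

/-!
# The Eisenstein descent on `J₀(p)`

`EisensteinDatum` for `J₀(p)` with the Hecke action, and the descent property it gives.
-/

set_option autoImplicit false
set_option maxHeartbeats 1000000
set_option linter.style.haveILetI false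

noncomputable section

open ModularCurve Module Matrix
open scoped Pointwise

namespace Fermat.Agent.Mazur.Eisenstein.Jacobian

open Fermat.Agent.GaloisReps Fermat.Agent.Arith

variable {p r : ℕ} [NeZero p] [Fact p.Prime] [Fact r.Prime]

theorem coe_toZModPow_one_eq {x y : ℤ_[r]}
    (h : PadicInt.toZModPow 1 x = PadicInt.toZModPow 1 y) :
    PadicInt.toZMod x = PadicInt.toZMod y := by
  rw [← sub_eq_zero, ← map_sub] at h ⊢
  rw [← RingHom.mem_ker, PadicInt.ker_toZModPow, pow_one] at h
  rw [← RingHom.mem_ker, PadicInt.ker_toZMod, PadicInt.maximalIdeal_eq_span_p]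
  exact h

/-- A fixed eigenclass of order `r` as a vector modulo `r`. -/
theorem exists_mod_eigenvector (hES : CongruenceProperty p r) {c : JZero p}
    (hfix : ∀ σ : GQ, σ • c = c) (hord : addOrderOf c = r) {ε : HeckeAlg →+* ℤ}
    (heig : ∀ t : HeckeAlg, (letI := heckeModuleBar p; t • c) = ε t • c) :
    ∃ v₁ : Fin (2 * Gamma0.genus p) → ZMod r, v₁ ≠ 0 ∧ ∀ t : HeckeAlg,
      (latMat p t).map (Int.castRingHom (ZMod r)) *ᵥ v₁ = (eisChar p r ε t : ZMod r) • v₁ := by
  have hrc : r • c = 0 := addOrderOf_dvd_iff_nsmul_eq_zero.mp (dvd_of_eq hord)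
  obtain ⟨w, hw⟩ := exists_torsMap_eq (r := r) 1 c (by rw [pow_one]; exact hrc)
  haveI : NeZero (r ^ 1) := ⟨pow_ne_zero _ (Fact.out : r.Prime).ne_zero⟩
  set v : Fin (2 * Gamma0.genus p) → ℤ_[r] := fun i => ((w i).val : ℤ_[r]) with hv
  have hvw : redVec r _ 1 v = w := funext fun i => by
    show PadicInt.toZModPow 1 ((w i).val : ℤ_[r]) = w i
    rw [map_natCast, ZMod.natCast_zmod_val]
  have hc : torsMap p r 1 (redVec r _ 1 v) = c := by rw [hvw, hw]
  have hmul : ∀ (Y : Matrix (Fin (2 * Gamma0.genus p)) (Fin (2 * Gamma0.genus p)) ℤ) i,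
      PadicInt.toZMod ((intMat r Y *ᵥ v) i) =
        (Y.map (Int.castRingHom (ZMod r)) *ᵥ fun j => PadicInt.toZMod (v j)) i := fun Y i => by
    rw [RingHom.map_mulVec]
    congr 1
    ext a b
    simp [intMat]
  refine ⟨fun i => PadicInt.toZMod (v i), fun h0 => ?_, fun t => funext fun i => ?_⟩
  · have h1 : redVec r _ 1 v = 0 := funext fun i => by
      show PadicInt.toZModPow 1 (v i) = 0
      rw [← RingHom.mem_ker, PadicInt.ker_toZModPow, pow_one, ← PadicInt.maximalIdeal_eq_span_p,
        ← PadicInt.ker_toZMod, RingHom.mem_ker]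
      exact congrFun h0 i
    rw [h1, map_zero] at hc
    rw [← hc, addOrderOf_zero] at hord
    exact (Fact.out : r.Prime).one_lt.ne hord
  · have h1 : torsMap p r 1 (redVec r _ 1 (intMat r (latMat p t) *ᵥ v)) =
        torsMap p r 1 (redVec r _ 1 ((eisChar p r ε t : ℤ_[r]) • v)) := by
      rw [← torsMap_mat (heckeOperatorsCommuteBar p), hc, heig,
        zsmul_eq_of_zmod_eq hrc (cast_eisChar hES hfix hord heig t).symm, Int.cast_smul_eq_zsmul,
        map_zsmul, map_zsmul, hc]
    have h2 := coe_toZModPow_one_eq (congrFun (torsMap_injective 1 h1) i)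
    rw [hmul, Pi.smul_apply, smul_eq_mul, map_mul, map_intCast] at h2
    rw [h2]
    rfl

theorem linearIndependent_pair {K : Type*} [Field K] {n d : ℕ}
    (b : Basis (Fin n × Fin 2) K (Fin d → K)) (i : Fin n) :
    LinearIndependent K fun j => b (i, j) :=
  b.linearIndependent.comp (fun j => (i, j)) fun _ _ h => (Prod.ext_iff.mp h).2

/-- The datum of the descent. -/
theorem nonempty_datum (hp5 : 5 ≤ p) (hrp : r ≠ p)
    (hinj : EichlerShimura.InjectiveOnTorsion p) (hO : OrderProperty p)
    (hss : SemistableProperty p p) {c : JZero p}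
    (hfix : ∀ σ : GQ, σ • c = c) (hord : addOrderOf c = r) {ε : HeckeAlg →+* ℤ}
    (heig : ∀ t : HeckeAlg, (letI := heckeModuleBar p; t • c) = ε t • c) :
    letI := heckeModuleBar p
    ∃ D : EisensteinDatum p r (JZero p) HeckeAlg, D.eps = eisChar p r ε := by
  have hr : r.Prime := Fact.out
  have hp : p.Prime := Fact.out
  have hES : CongruenceProperty p r := congruenceProperty_of_injective hinj
  have hcomm := heckeOperatorsCommuteBar p
  obtain ⟨v₁, hv₁, hmat₁⟩ := exists_mod_eigenvector hES hfix hord heig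
  obtain ⟨n, theta, b, hinjθ, hfull, hb⟩ := exists_plane_basis p hp (Kr r)
  set D := jacobianModel p r (conjProperty p) hES
  have hNA : ∀ {q : ℕ}, q.Prime → q ≠ p → ∀ {A : ValuationSubring QBar}, A.LiesOverPrime q →
      (p : EichlerShimura.Kappa A) ≠ 0 := fun hq hqp _ hA =>
    EichlerShimura.natCast_ne_zero hq (fun h => hqp ((Nat.prime_dvd_prime_iff_eq hq hp).mp h)) hA
  letI := heckeModuleBar p
  refine ⟨{
    prime := hp
    five_le := hp5
    ne := hrp
    smul_comm := fun g t x => galois_smul_hecke g t x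
    isOpen := exists_open_fix
    divisible := exists_divide
    d := 2 * Gamma0.genus p
    mat := latMat p
    gal := latGal p r
    gal_mat := fun g t => latGal_latMat hES g t
    ι := torsMap p r
    ι_injective := torsMap_injective
    exists_ι_eq := exists_torsMap_eq
    ι_compat := torsMap_compat
    ι_mat := torsMap_mat hcomm
    ι_gal := torsMap_gal
    ker := kerRed p
    inertia_sub_mem := fun q hq hqp A hA σ hσ x => by
      haveI := Fact.mk hq
      haveI := Arith.residueField_isAlgClosed A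
      exact inertia_sub_mem_kerRed (hNA hq hqp hA) hσ x
    eq_zero_of_mem := fun q hq hqp A hA m x hm hmx hx =>
      eq_zero_of_mem_kerRed hinj hq (fun h => hqp ((Nat.prime_dvd_prime_iff_eq hq hp).mp h)) hA hm
        hmx hx
    smul_mem := fun q hq hqp A hA σ hσ x hx => by
      haveI := Fact.mk hq
      haveI := Arith.residueField_isAlgClosed A
      exact smul_mem_kerRed (hNA hq hqp hA) hσ hx
    hecke_mem := fun q hq hqp A hA t x hx => hecke_mem_kerRed t hx
    exists_bound := fun q hq hqp A hA => by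
      haveI := Fact.mk hq
      haveI := Arith.residueField_isAlgClosed A
      exact exists_bound_kerRed (hNA hq hqp hA) hq hA
    exists_order := fun A hA m => by
      obtain ⟨M, i1, i2, i3, i, O, h1, h2, h3, h4⟩ :=
        hO r hr (fun h => hrp ((Nat.prime_dvd_prime_iff_eq hr hp).mp h)) A hA m
      exact ⟨M, i1, i2, i3, i, O, h1, h2, h3, fun f hf x hx =>
        h4 f hf x (reductionModL_eq_zero_of_mem hx)⟩
    semistable := fun A hA σ hσ m x hx => hss A hA σ hσ (r ^ m) x
      (fun h => hrp.symm ((Nat.prime_dvd_prime_iff_eq hp hr).mp (hp.dvd_of_dvd_pow h))) hx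
    eps := eisChar p r ε
    v₁ := v₁
    v₁_ne := hv₁
    mat_v₁ := hmat₁
    eps_frobenius := fun q hq hqp hqr A hA σ hσ => by
      have hnd : ¬ q ∣ p * r := fun h => (hq.dvd_mul.mp h).elim
        (fun h => hqp ((Nat.prime_dvd_prime_iff_eq hq hp).mp h))
        (fun h => hqr ((Nat.prime_dvd_prime_iff_eq hq hr).mp h))
      refine ⟨heckeGen ⟨q, hq⟩, ?_, ?_⟩
      · rw [eisChar_heckeGen, eisVal, if_neg hnd]
      · have h := D.gal_frobenius q hq hnd A hA σ hσ
        rw [latMat, RingHom.comp_apply, toFull_heckeGen]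
        exact h
    n := n
    theta := theta
    theta_injective := hinjθ
    planeBasis := b
    mat_planeBasis := hb
    gal_planeBasis := fun g i => by
      obtain ⟨θ, hθ⟩ := hfull i
      refine exists_planeMat_of_model D θ (fun j => b (i, j)) (linearIndependent_pair b i)
        (fun j => (mem_eigenspace _ θ _).mpr fun a => ?_) g
      obtain ⟨t, rfl⟩ := toFull_surjective p a
      have h := hb t (i, j)
      rw [hθ, RingHom.comp_apply] at h
      exact h }, rfl⟩

/-- **The Eisenstein descent on `J₀(p)`.** -/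
theorem descentProperty (hp5 : 5 ≤ p) (hinj : EichlerShimura.InjectiveOnTorsion p)
    (hO : OrderProperty p) (hss : SemistableProperty p p) : DescentProperty p := by
  intro r hr c ε hfix heig hpos hrc hrp
  haveI := Fact.mk hr
  letI := heckeModuleBar p
  obtain ⟨k, hk⟩ := hrc
  have hord : addOrderOf (k • c) = r := by
    have hk0 : k ≠ 0 := fun h => by rw [h, mul_zero] at hk; omega
    rw [addOrderOf_nsmul' c hk0, hk, Nat.gcd_mul_left_left, Nat.mul_div_cancel _ (Nat.pos_of_ne_zero hk0)]
  have hfix' : ∀ σ : GQ, σ • (k • c) = k • c := fun σ => by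
    rw [EichlerShimura.galois_smul_nsmul, hfix]
  have heig' : ∀ t : HeckeAlg, t • (k • c) = ε t • (k • c) := fun t => by
    rw [smul_comm t, heig, ← natCast_zsmul c k, ← natCast_zsmul (ε t • c) k, smul_smul, smul_smul, mul_comm]
  obtain ⟨D, hD⟩ := nonempty_datum hp5 hrp hinj hO hss hfix' hord heig'
  obtain ⟨C, hC⟩ := D.exists_descent
  refine ⟨C, D.t₀, ?_, hC⟩
  have h1 := D.eps_t₀
  rw [hD, cast_eisChar (congruenceProperty_of_injective hinj) hfix' hord heig'] at h1
  rw [← ZMod.intCast_zmod_eq_zero_iff_dvd, Int.cast_sub, Int.cast_one, h1, sub_self]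

end Fermat.Agent.Mazur.Eisenstein.Jacobian

end
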